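import Fermat.Agent.Lower.Levels.DeltaRing

/-!
# The group ring of a `p`-group over the coefficients

`normElt` is the sum of the group elements.  Every nonzero saturated submodule of a free module
over the group ring has an element congruent to a primitive multiple of it
(`exists_mem_norm_congr`), since modulo the maximal ideal the augmentation ideal is nilpotent and
only the multiples of the norm are killed by it.
-/

set_option autoImplicit false
set_option linter.unusedSectionVars false
set_option linter.style.haveILetI false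

noncomputable section

namespace FLTAgent.Lower.Levels

open IsLocalRing (maximalIdeal ResidueField residue)

variable {O : Type} [CommRing O] [IsDomain O] [IsDiscreteValuationRing O] {p n r : ℕ}
  [Fact p.Prime]

variable (O p n r) in
/-- The sum of the group elements. -/
def normElt : DeltaRing O p n r :=
  ∑ a : Fin r → ZMod (p ^ n), AddMonoidAlgebra.single a (1 : O)

theorem coeff_normElt (a : Fin r → ZMod (p ^ n)) : (normElt O p n r).coeff a = 1 := by
  classical
  simp [normElt, AddMonoidAlgebra.coeff_sum, Finsupp.single_apply]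

/-- The norm element absorbs the augmentation. -/
theorem normElt_mul (z : DeltaRing O p n r) :
    normElt O p n r * z = deltaAug O p n r z • normElt O p n r := by
  induction z using AddMonoidAlgebra.induction_linear with
  | zero => simp
  | add x y hx hy => rw [mul_add, hx, hy, map_add, add_smul]
  | single a c =>
    have h : deltaAug O p n r (AddMonoidAlgebra.single a c) = c := by simp [deltaAug]
    rw [h, normElt, Finset.sum_mul, Finset.smul_sum]
    exact Fintype.sum_equiv (Equiv.addRight a) _ _ fun b => by simp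

theorem coeff_mem_of_mem_smul_top {z : DeltaRing O p n r}
    (h : z ∈ maximalIdeal O • (⊤ : Submodule O (DeltaRing O p n r)))
    (a : Fin r → ZMod (p ^ n)) : z.coeff a ∈ maximalIdeal O := by
  induction h using Submodule.smul_induction_on' with
  | smul c hc x _ =>
    rw [AddMonoidAlgebra.coeff_smul, Finsupp.smul_apply, smul_eq_mul]
    exact Ideal.mul_mem_right _ _ hc
  | add x _ y _ hx hy =>
    rw [AddMonoidAlgebra.coeff_add, Finsupp.add_apply]
    exact add_mem hx hy

theorem mem_smul_top_of_coeff {z : DeltaRing O p n r}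
    (h : ∀ a, z.coeff a ∈ maximalIdeal O) :
    z ∈ maximalIdeal O • (⊤ : Submodule O (DeltaRing O p n r)) := by
  classical
  have e : z = ∑ a : Fin r → ZMod (p ^ n), z.coeff a • AddMonoidAlgebra.single a (1 : O) := by
    ext b
    simp [AddMonoidAlgebra.coeff_sum]
  rw [e]
  exact Submodule.sum_mem _ fun a _ => Submodule.smul_mem_smul (h a) Submodule.mem_top

theorem normElt_notMem : normElt O p n r ∉ maximalIdeal O • (⊤ : Submodule O (DeltaRing O p n r)) :=
  fun h => (IsLocalRing.maximalIdeal.isMaximal O).ne_top ((Ideal.eq_top_iff_one _).mpr (by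
    simpa [coeff_normElt] using coeff_mem_of_mem_smul_top h 0))

variable {d : ℕ}

/-- A saturated nonzero submodule has an element which is nonzero residually. -/
theorem exists_mem_coeff_notMem (K : Submodule (DeltaRing O p n r) (Fin d → DeltaRing O p n r))
    (hsat : ∀ (b : O) (z : Fin d → DeltaRing O p n r), b ≠ 0 →
      algebraMap O (DeltaRing O p n r) b • z ∈ K → z ∈ K) (hne : K ≠ ⊥) :
    ∃ z ∈ K, ∃ j a, (z j).coeff a ∉ maximalIdeal O := by
  classical
  obtain ⟨ϖ, hϖ⟩ := IsDiscreteValuationRing.exists_irreducible O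
  have hmax := hϖ.maximalIdeal_eq
  have key : ∀ k : ℕ, ∀ z ∈ K, (∃ j a, (z j).coeff a ∉ maximalIdeal O ^ k) →
      ∃ z ∈ K, ∃ j a, (z j).coeff a ∉ maximalIdeal O := by
    intro k
    induction k with
    | zero => rintro z - ⟨j, a, h⟩; simp at h
    | succ k ih =>
      rintro z hz ⟨j, a, h⟩
      by_cases hall : ∀ j a, (z j).coeff a ∈ maximalIdeal O
      · simp only [hmax, Ideal.mem_span_singleton] at hall
        choose y hy using hall
        let z' : Fin d → DeltaRing O p n r := fun j =>
          ∑ a : Fin r → ZMod (p ^ n), y j a • AddMonoidAlgebra.single a (1 : O)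
        have hz' : ∀ j a, (z' j).coeff a = y j a := fun j a => by
          simp [z', AddMonoidAlgebra.coeff_sum, Finsupp.single_apply]
        have e : algebraMap O (DeltaRing O p n r) ϖ • z' = z := funext fun j => by
          ext a
          rw [Pi.smul_apply, algebraMap_smul, AddMonoidAlgebra.coeff_smul, Finsupp.smul_apply,
            hz', smul_eq_mul, hy]
        refine ih z' (hsat ϖ z' hϖ.ne_zero (by rw [e]; exact hz)) ⟨j, a, fun h' => h ?_⟩
        rw [← e, Pi.smul_apply, algebraMap_smul, AddMonoidAlgebra.coeff_smul, Finsupp.smul_apply,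
          smul_eq_mul, pow_succ']
        exact Ideal.mul_mem_mul (hmax ▸ Ideal.mem_span_singleton_self ϖ) h'
      · push Not at hall
        exact ⟨z, hz, hall⟩
  obtain ⟨z, hz, hz0⟩ := K.exists_mem_ne_zero_of_ne_bot hne
  obtain ⟨j, hj⟩ := Function.ne_iff.mp hz0
  obtain ⟨a, ha⟩ : ∃ a, (z j).coeff a ≠ 0 := by
    by_contra hcon
    push Not at hcon
    exact hj (by ext a; simpa using hcon a)
  obtain ⟨k, hk⟩ : ∃ k : ℕ, (z j).coeff a ∉ maximalIdeal O ^ k := by
    by_contra hcon
    push Not at hcon
    exact ha ((Submodule.mem_bot O).mp ((Ideal.iInf_pow_eq_bot_of_isLocalRing (maximalIdeal O)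
      (IsLocalRing.maximalIdeal.isMaximal O).ne_top) ▸ Submodule.mem_iInf _ |>.mpr hcon))
  exact key k z hz ⟨j, a, hk⟩

/-- A saturated nonzero submodule has an element congruent to a primitive multiple of the norm. -/
theorem exists_mem_norm_congr (hp : (p : O) ∈ maximalIdeal O)
    (K : Submodule (DeltaRing O p n r) (Fin d → DeltaRing O p n r))
    (hsat : ∀ (b : O) (z : Fin d → DeltaRing O p n r), b ≠ 0 →
      algebraMap O (DeltaRing O p n r) b • z ∈ K → z ∈ K) (hne : K ≠ ⊥) :
    ∃ z ∈ K, ∃ z₁ : Fin d → O, (∃ j, residue O (z₁ j) ≠ 0) ∧ ∀ j,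
      z j - z₁ j • normElt O p n r ∈ maximalIdeal O • (⊤ : Submodule O (DeltaRing O p n r)) := by
  classical
  let π := AddMonoidAlgebra.mapRingHom (Fin r → ZMod (p ^ n)) (residue O)
  have hπ : ∀ x a, (π x).coeff a = residue O (x.coeff a) := fun x a =>
    AddMonoidAlgebra.coeff_mapRingHom _ _ _
  have hchar : (p : ResidueField O) = 0 := by
    rw [← map_natCast (residue O), IsLocalRing.residue_eq_zero_iff]
    exact hp
  haveI : CharP (ResidueField O) p := (CharP.charP_iff_prime_eq_zero Fact.out).mpr hchar
  haveI : CharP (AddMonoidAlgebra (ResidueField O) (Fin r → ZMod (p ^ n))) p :=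
    charP_of_injective_algebraMap
      (FaithfulSMul.algebraMap_injective (ResidueField O) _) p
  let T : Fin r → DeltaRing O p n r := fun i => AddMonoidAlgebra.single (Pi.single i 1) 1
  have hnil : ∀ i, (π (T i - 1)) ^ p ^ n = 0 := fun i => by
    have e : T i ^ p ^ n = 1 := by
      rw [AddMonoidAlgebra.single_pow, one_pow, show (p ^ n) • (Pi.single i 1 :
        Fin r → ZMod (p ^ n)) = 0 from funext fun j => by simp]
      rfl
    rw [map_sub, sub_pow_char_pow, map_one, one_pow, ← map_pow, e, map_one, sub_self]
  have key : ∀ s : Finset (Fin r), ∃ z ∈ K, (∃ j, π (z j) ≠ 0) ∧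
      ∀ i ∈ s, ∀ j, π (T i - 1) * π (z j) = 0 := by
    intro s
    induction s using Finset.induction_on with
    | empty =>
      obtain ⟨z, hz, j, a, ha⟩ := exists_mem_coeff_notMem K hsat hne
      refine ⟨z, hz, ⟨j, fun h => ha ?_⟩, fun i hi => absurd hi (Finset.notMem_empty i)⟩
      rw [← IsLocalRing.residue_eq_zero_iff, ← hπ, h]
      simp
    | insert i s hi ih =>
      obtain ⟨z, hz, ⟨j₀, hj₀⟩, hs⟩ := ih
      have hex : ∃ m, ∀ j, π (T i - 1) ^ m * π (z j) = 0 :=
        ⟨p ^ n, fun j => by rw [hnil, zero_mul]⟩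
      obtain ⟨m, hm⟩ : ∃ m, Nat.find hex = m + 1 := Nat.exists_eq_succ_of_ne_zero fun h =>
        hj₀ (by have h' := Nat.find_spec hex j₀; rwa [h, pow_zero, one_mul] at h')
      refine ⟨(T i - 1) ^ m • z, K.smul_mem _ hz, ?_, fun i' hi' j => ?_⟩
      · obtain ⟨j, hj⟩ := not_forall.mp (Nat.find_min hex (m := m) (by omega))
        exact ⟨j, by rw [Pi.smul_apply, smul_eq_mul, map_mul, map_pow]; exact hj⟩
      · rw [Pi.smul_apply, smul_eq_mul, map_mul, map_pow]
        rcases Finset.mem_insert.mp hi' with rfl | h
        · rw [← mul_assoc, ← pow_succ', ← hm]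
          exact Nat.find_spec hex j
        · rw [mul_left_comm, hs i' h j, mul_zero]
  obtain ⟨z, hz, ⟨j₀, hj₀⟩, hinv⟩ := key Finset.univ
  have hconst : ∀ j a, (π (z j)).coeff a = (π (z j)).coeff 0 := fun j => by
    let H : AddSubgroup (Fin r → ZMod (p ^ n)) :=
      { carrier := {b | ∀ a, (π (z j)).coeff (a + b) = (π (z j)).coeff a}
        zero_mem' := fun a => by rw [add_zero]
        add_mem' := fun {b c} hb hc a => by rw [← add_assoc, hc, hb]
        neg_mem' := fun {b} hb a => by
          have h := hb (a + -b)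
          rw [neg_add_cancel_right] at h
          exact h.symm }
    have hgen : ∀ i, Pi.single i 1 ∈ H := fun i a => by
      have h := hinv i (Finset.mem_univ i) j
      rw [map_sub, map_one, sub_mul, one_mul, sub_eq_zero] at h
      have h' := congrArg (fun q => AddMonoidAlgebra.coeff q (a + Pi.single i 1)) h
      simp only [π, T, AddMonoidAlgebra.mapRingHom_single, map_one,
        AddMonoidAlgebra.coeff_single_mul_apply, one_mul, neg_add_cancel_comm_assoc] at h'
      exact h'.symm
    intro a
    have hb : a ∈ H := by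
      rw [← Finset.univ_sum_single a]
      refine sum_mem fun i _ => ?_
      rw [show Pi.single i (a i) = (a i).val • (Pi.single i 1 : Fin r → ZMod (p ^ n)) by
        rw [← Pi.single_smul', nsmul_eq_mul, mul_one, ZMod.natCast_zmod_val]]
      exact H.nsmul_mem (hgen i) _
    simpa using hb 0
  refine ⟨z, hz, fun j => (z j).coeff 0, ⟨j₀, fun h => hj₀ ?_⟩, fun j => mem_smul_top_of_coeff fun a => ?_⟩
  · ext a
    rw [hconst j₀ a, hπ, h]
    simp
  · rw [AddMonoidAlgebra.coeff_sub, Finsupp.sub_apply, AddMonoidAlgebra.coeff_smul,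
      Finsupp.smul_apply, coeff_normElt, smul_eq_mul, mul_one, ← IsLocalRing.residue_eq_zero_iff,
      map_sub, ← hπ, ← hπ, hconst j a, sub_self]

end FLTAgent.Lower.Levels
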