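import Fermat.Agent.Lower.Levels.TwRel.Depl
import Fermat.Agent.Lower.Levels.Inertia
import Fermat.Agent.Lower.Levels.StabFrame

/-!
# Residual classes stabilised from level `M`

They are sums of the two degeneracies of eigenclasses (`exists_degen_decomp`), and their trivial
twist is the depletion of a parabolic class with the same generalised eigenvalue
(`exists_period_depletion`).
-/

set_option autoImplicit false
set_option linter.unusedSectionVars false
set_option linter.style.haveILetI false

noncomputable section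

open CongruenceSubgroup
open scoped MatrixGroups

namespace FLTAgent.Lower.Levels

open IsLocalRing (maximalIdeal ResidueField residue)
open FLTAgent.HeckeH (matOf)
open Depletion (val1 val1_map_unit)

section Field

variable {k : Type} [Field k] {ι : Type}

/-- Elements of a part are generalised eigenvectors. -/
theorem part_mem_maxGenEigenspace {X : Type} [AddCommGroup X] [Module k X] [Module.Finite k X]
    {act : MvPolynomial ι k →ₐ[k] Module.End k X} {θ : ι → k} {x : X}
    (hx : x ∈ part act (eigIdeal (RingHom.id k) θ)) (i : ι) :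
    x ∈ (act (MvPolynomial.X i) : Module.End k X).maxGenEigenspace (θ i) := by
  set T : Module.End k X := act (MvPolynomial.X i)
  have hint : IsIntegral k T := Algebra.IsIntegral.isIntegral T
  obtain ⟨g, hg, hndvd⟩ :=
    (minpoly k T).exists_eq_pow_rootMultiplicity_mul_and_not_dvd (minpoly.ne_zero hint) (θ i)
  set m := (minpoly k T).rootMultiplicity (θ i)
  have heval : ∀ q : Polynomial k,
      MvPolynomial.eval₂Hom (RingHom.id k) θ (Polynomial.aeval (MvPolynomial.X i) q) =
        q.eval (θ i) := fun q => by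
    induction q using Polynomial.induction_on' with
    | add a b ha hb => simp only [map_add, Polynomial.eval_add, ha, hb]
    | monomial n a => simp [Polynomial.aeval_monomial]
  obtain ⟨y, hy⟩ := mem_part.mp hx (Polynomial.aeval (MvPolynomial.X i) g) (fun h => hndvd (by
    rw [mem_eigIdeal, heval] at h
    rwa [Polynomial.dvd_iff_isRoot]))
  rw [← Polynomial.aeval_algHom_apply] at hy
  refine (Module.End.mem_maxGenEigenspace _ _ _).mpr ⟨m, ?_⟩
  rw [← hy]
  have h0 := congrArg (fun q => Polynomial.aeval T q y) hg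
  simp only [minpoly.aeval, map_mul, map_pow, map_sub, Polynomial.aeval_X, Polynomial.aeval_C,
    Algebra.algebraMap_eq_smul_one, LinearMap.zero_apply, Module.End.mul_apply] at h0
  exact h0.symm

variable {N v : ℕ}

/-- A stable submodule of level `N` spans, by the two degeneracies, a stable submodule of level
`N v`. -/
theorem exists_degen_decomp (hv : v.Prime) (hvN : ¬ v ∣ N) (G : Submodule k (H1 k k (tchi N k)))
    (hG : ∀ (q : ℕ) (hq : q.Prime) (a : H1 k k (tchi N k)), a ∈ G →
      heckeOp hq (1 : (ZMod N)ˣ →* kˣ) k a ∈ G)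
    {y : H1 k k (tchi N k)} (hy : y ∈ G) (pr : ι → Nat.Primes) (s : MvPolynomial ι k) :
    ∃ a ∈ G, ∃ b ∈ G, famAct (1 : (ZMod (N * v))ˣ →* kˣ) pr k s ((degOne N k v).map k y) =
      (degOne N k v).map k a + (degV N k hv).map k b := by
  induction s using MvPolynomial.induction_on generalizing y with
  | C c =>
    exact ⟨c • y, G.smul_mem c hy, 0, G.zero_mem, by
      rw [MvPolynomial.algHom_C, Module.algebraMap_end_apply, map_smul, map_zero, add_zero]⟩
  | add s t hs ht =>
    obtain ⟨a, ha, b, hb, e⟩ := hs hy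
    obtain ⟨a', ha', b', hb', e'⟩ := ht hy
    refine ⟨a + a', G.add_mem ha ha', b + b', G.add_mem hb hb', ?_⟩
    rw [map_add, LinearMap.add_apply, e, e', map_add, map_add]
    abel
  | mul_X s i hs =>
    obtain ⟨a, ha, b, hb, e⟩ := hs hy
    rw [mul_comm s, map_mul, Module.End.mul_apply, e, famAct_X, map_add]
    by_cases hi : (pr i : ℕ) = v
    · obtain rfl : v = (pr i : ℕ) := hi.symm
      refine ⟨heckeOp hv 1 k a + ((pr i : ℕ) : k) • b, G.add_mem (hG _ hv a ha) (G.smul_mem _ hb),
        -a, G.neg_mem ha, ?_⟩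
      rw [hecke_degOne hv hvN, hecke_degV hv hvN, map_add, map_smul, map_neg]
      abel
    · exact ⟨_, hG _ (pr i).2 a ha, _, hG _ (pr i).2 b hb, by
        rw [degOne_hecke (pr i).2 hv hi, degV_hecke (pr i).2 hv hi]⟩

end Field

variable {O : Type} [CommRing O] [IsLocalRing O] [IsAddTorsionFree O]

/-- Reduction of classes with trivial character. -/
abbrev resCl (O : Type) [CommRing O] [IsLocalRing O] (N : ℕ) : H1 O O (tchi N O) →ₛₗ[residue O]
    H1 (ResidueField O) (ResidueField O) (tchi N (ResidueField O)) :=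
  coefMap (A := O) (B := ResidueField O) (residue O).toSemilinearMap (one_compat (residue O) N)

omit [IsAddTorsionFree O] in
/-- Reduction intertwines the trivial twists. -/
theorem resCl_twistSys {N M Q : ℕ} [NeZero Q] (hQN : Q ∣ N) (hM : N * Q ∣ M)
    (x : H1 O O (tchi N O)) :
    resCl O M ((twistSys (twistRel_one hQN hM)).map O x) =
      depMap (ResidueField O) hQN hM (resCl O N x) := by
  induction x using Submodule.Quotient.induction_on with
  | _ c =>
    refine congrArg Submodule.Quotient.mk (Subtype.ext (funext fun γ => ?_))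
    show residue O (((twistSys (twistRel_one hQN hM)).op c : Gamma0 M → O) γ) = _
    rw [coe_twistSys_op, coe_twistSys_op, twistFun_apply, twistFun_apply, map_sum]
    refine Finset.sum_congr rfl fun u _ => ?_
    simp only [MonoidHom.one_apply, inv_one, Units.val_one, one_smul]
    rfl

set_option maxHeartbeats 1000000 in
/-- The trivial twist of a class stabilised from level `M` is the depletion of a parabolic
eigenclass. -/
theorem exists_period_depletion {M w v : ℕ} [NeZero M] [NeZero w] [NeZero v] (hv : v.Prime)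
    (hvMw : ¬ v ∣ M * w) (hv1 : (v : ResidueField O) = 1) (hwv : Nat.Coprime w v) {ℓ : ℕ}
    (hℓ : ℓ.Prime) (hℓN : M * w * w * v ∣ ℓ - 1) {c b : ResidueField O}
    (hc : c ≠ (ℓ : ResidueField O) + 1) (y₀ : H1 O O (tchi M O))
    (hT : resCl O M y₀ ∈
      (heckeOp hℓ (1 : (ZMod M)ˣ →* (ResidueField O)ˣ) (ResidueField O)).maxGenEigenspace c)
    (hU : resCl O M y₀ ∈
      (heckeOp hv (1 : (ZMod M)ˣ →* (ResidueField O)ˣ) (ResidueField O)).maxGenEigenspace b)
    {ι : Type} (pr : ι → Nat.Primes) (s : MvPolynomial ι (ResidueField O))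
    (hML : M ∣ M * w * v) (hwL : w ∣ M * w * v) (hL : M * w * v * w ∣ M * w * w * v) :
    ∃ x : Period.H (M * w * w) (ResidueField O) (ResidueField O),
      (∃ j : ℕ, ((HeckeH.heckeH (M * w * w) hv (ResidueField O) (ResidueField O) -
        b • (1 : Module.End (ResidueField O)
          (Period.H (M * w * w) (ResidueField O) (ResidueField O)))) ^ j) x = 0) ∧
      ∀ γ : Gamma0 (M * w * w * v * v),
        twistFun (dvd_mul_left v (M * w * w)) dvd_rfl (1 : (ZMod v)ˣ →* (ResidueField O)ˣ)
          (twistFun hwL hL (1 : (ZMod w)ˣ →* (ResidueField O)ˣ) fun δ =>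
            val1 (famAct (1 : (ZMod (M * w * v))ˣ →* (ResidueField O)ˣ) pr (ResidueField O) s
              ((resSys (ResidueField O) hML).map (ResidueField O) (resCl O M y₀))) δ) γ =
          depletion (M * w * w) v x γ := by
  classical
  haveI : RingHomSurjective (residue O) := ⟨IsLocalRing.residue_surjective⟩
  have hℓL : ¬ ℓ ∣ M * w * w * v := fun hd => by
    have := Nat.le_of_dvd (by have := hℓ.two_le; omega) (hd.trans hℓN)
    have := hℓ.two_le
    omega
  have hℓMw : ¬ ℓ ∣ M * w := fun hd => hℓL ((hd.mul_right w).mul_right v)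
  set G : Submodule (ResidueField O) (H1 (ResidueField O) (ResidueField O) (tchi (M * w) _)) :=
    (heckeOp hℓ (1 : (ZMod (M * w))ˣ →* (ResidueField O)ˣ) (ResidueField O)).maxGenEigenspace c ⊓
    (heckeOp hv (1 : (ZMod (M * w))ˣ →* (ResidueField O)ˣ) (ResidueField O)).maxGenEigenspace b ⊓
    LinearMap.range (resCl O (M * w))
  have hG : ∀ (q : ℕ) (hq : q.Prime) a, a ∈ G → heckeOp hq 1 (ResidueField O) a ∈ G := by
    rintro q hq a ⟨⟨h1, h2⟩, ⟨z, hz⟩⟩
    exact ⟨⟨map_mem_maxGenEigenspace _ (fun z => heckeOp_comm hq hℓ 1 z) h1,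
      map_mem_maxGenEigenspace _ (fun z => heckeOp_comm hq hv 1 z) h2⟩,
      ⟨heckeOp hq 1 O z, by rw [coefMap_heckeOp, hz]⟩⟩
  set r := (resSys (ResidueField O) (dvd_mul_right M w)).map (ResidueField O) (resCl O M y₀) with hr
  have hrG : r ∈ G := ⟨⟨
    map_mem_maxGenEigenspace _ (fun z => resSys_hecke _ hℓ (fun hd => absurd hd hℓMw) z) hT,
    map_mem_maxGenEigenspace _ (fun z => resSys_hecke _ hv (fun hd => absurd hd hvMw) z) hU⟩,
    ⟨(resSys O (dvd_mul_right M w)).map O y₀, H1.mapCoef_map _ _ _ (resSys O (dvd_mul_right M w))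
      (resSys (ResidueField O) (dvd_mul_right M w)) (inj_resSys _) (fun _ => rfl)
      (fun _ => (map_one _).symm) _⟩⟩
  obtain ⟨a, ⟨⟨haT, haU⟩, ⟨ah, hah⟩⟩, a₂, -, hdec⟩ := exists_degen_decomp hv hvMw G hG hrG pr s
  rw [hr, degOne_eq_resSys, resSys_trans] at hdec
  -- the class at level `M w w`
  set a' := depMap (ResidueField O) (hQN := dvd_mul_left w M) (hM := dvd_refl (M * w * w)) a with ha'
  have hℓw : ¬ ℓ ∣ w := fun hd => hℓMw (hd.mul_left M)
  have hvw : ¬ v ∣ w := fun hd => hvMw (hd.mul_left M)
  have ha'T : a' ∈ (heckeOp hℓ (1 : (ZMod (M * w * w))ˣ →* (ResidueField O)ˣ)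
      (ResidueField O)).maxGenEigenspace c :=
    map_mem_maxGenEigenspace _ (fun z => depMap_hecke hℓ hℓw
      (fun hd => absurd (hd.mul_right v) hℓL) z) haT
  have ha'U : a' ∈ (heckeOp hv (1 : (ZMod (M * w * w))ˣ →* (ResidueField O)ˣ)
      (ResidueField O)).maxGenEigenspace b :=
    map_mem_maxGenEigenspace _ (fun z => depMap_hecke hv hvw (fun hd =>
      absurd ((hv.dvd_mul.mp hd).elim id fun h => h.mul_left M) hvMw) z) haU
  have ha'R : a' ∈ LinearMap.range (resCl O (M * w * w)) :=
    ⟨(twistSys (twistRel_one (dvd_mul_left w M) (dvd_refl (M * w * w)))).map O ah, by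
      rw [resCl_twistSys, hah]⟩
  -- parabolicity
  set T := heckeOp hℓ (1 : (ZMod (M * w * w))ˣ →* (ResidueField O)ˣ) (ResidueField O)
  obtain ⟨yh, hyh⟩ : ∃ yh : H1 O O (tchi (M * w * w) O),
      resCl O (M * w * w) (heckeOp hℓ 1 O yh - ((ℓ : O) + 1) • yh) = a' := by
    obtain ⟨j, hj⟩ := (Module.End.mem_maxGenEigenspace _ _ _).mp ha'T
    obtain ⟨A, B, hAB⟩ := (Polynomial.isCoprime_X_sub_C_of_isUnit_sub (a := c)
      (b := (ℓ : ResidueField O) + 1) (sub_ne_zero.mpr hc).isUnit).pow_left (m := j)
    have h1 := congrArg (fun q => Polynomial.aeval T q a') hAB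
    simp only [map_add, map_mul, map_pow, map_sub, map_one, Polynomial.aeval_X, Polynomial.aeval_C,
      Algebra.algebraMap_eq_smul_one, Module.End.mul_apply, LinearMap.add_apply, hj, map_zero,
      zero_add, Module.End.one_apply] at h1
    have hstab : ∀ (P : Polynomial (ResidueField O)), ∀ z ∈ LinearMap.range (resCl O (M * w * w)),
        Polynomial.aeval T P z ∈ LinearMap.range (resCl O (M * w * w)) := by
      intro P
      induction P using Polynomial.induction_on with
      | C e =>
        intro z hz
        rw [Polynomial.aeval_C, Module.algebraMap_end_apply]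
        exact Submodule.smul_mem _ e hz
      | add P P' hP hP' =>
        intro z hz
        rw [map_add, LinearMap.add_apply]
        exact add_mem (hP z hz) (hP' z hz)
      | monomial n e ih =>
        intro z hz
        rw [pow_succ, ← mul_assoc, map_mul, Module.End.mul_apply, Polynomial.aeval_X]
        obtain ⟨zh, rfl⟩ := hz
        exact ih _ ⟨heckeOp hℓ 1 O zh, coefMap_heckeOp _ _ hℓ zh⟩
    obtain ⟨Bh, hBh⟩ := hstab B a' ha'R
    refine ⟨Bh, ?_⟩
    have hcm : T * Polynomial.aeval T B = Polynomial.aeval T B * T := by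
      simpa using congrArg (Polynomial.aeval T) (Polynomial.X_mul (p := B))
    rw [map_sub, coefMap_heckeOp, LinearMap.map_smulₛₗ, map_add, map_natCast, map_one, hBh,
      ← Module.End.mul_apply, hcm, Module.End.mul_apply]
    conv_rhs => rw [← h1]
    simp [add_smul, map_add]
  have hO := heckeOp_sub_mem_H (A := O) hℓ ((dvd_mul_right _ v).trans hℓN) yh
  have hval : ∀ γ : Gamma0 (M * w * w), h1Triv (M * w * w) (ResidueField O) (ResidueField O) a'
      (Additive.ofMul γ) = residue O (h1Triv (M * w * w) O O
        (heckeOp hℓ 1 O yh - ((ℓ : O) + 1) • yh) (Additive.ofMul γ)) := by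
    intro γ
    rw [← hyh]
    generalize heckeOp hℓ 1 O yh - ((ℓ : O) + 1) • yh = z
    induction z using Submodule.Quotient.induction_on with
    | _ c => rfl
  let x : Period.H (M * w * w) (ResidueField O) (ResidueField O) :=
    ⟨h1Triv (M * w * w) (ResidueField O) (ResidueField O) a', ⟨fun γ hγ => by rw [hval, hO.1 γ hγ, map_zero],
      fun γ hγ => by rw [hval, hO.2 γ hγ, map_zero]⟩⟩
  refine ⟨x, ?_, fun γ => ?_⟩
  · obtain ⟨j, hj⟩ := (Module.End.mem_maxGenEigenspace _ _ _).mp ha'U
    refine ⟨j, Subtype.ext ?_⟩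
    have e : ∀ j : ℕ, ∀ z : Period.H (M * w * w) (ResidueField O) (ResidueField O), ∀ z',
        (z : Additive (Gamma0 (M * w * w)) →+ ResidueField O) = h1Triv (M * w * w) (ResidueField O) (ResidueField O) z' →
        ((((HeckeH.heckeH (M * w * w) hv (ResidueField O) (ResidueField O) - b • 1) ^ j) z :
          Period.H (M * w * w) (ResidueField O) (ResidueField O)) :
            Additive (Gamma0 (M * w * w)) →+ ResidueField O) =
          h1Triv (M * w * w) (ResidueField O) (ResidueField O) (((heckeOp hv (1 : (ZMod (M * w * w))ˣ →* (ResidueField O)ˣ) (ResidueField O) -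
            b • (1 : Module.End (ResidueField O) (H1 (ResidueField O) (ResidueField O)
              (tchi (M * w * w) (ResidueField O))))) ^ j) z') := by
      intro j
      induction j with
      | zero => intro z z' h; simpa using h
      | succ j ih =>
        intro z z' h
        rw [pow_succ, pow_succ, Module.End.mul_apply, Module.End.mul_apply]
        refine ih _ _ ?_
        simp [HeckeH.coe_heckeH, h]
        exact (h1Triv_heckeOp hv z').symm
    rw [e j x a' rfl, hj, map_zero, ZeroMemClass.coe_zero]
  -- the second degeneracy dies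
  have hvMwv : v ∣ M * w * v := dvd_mul_left v (M * w)
  have hkill : depMap (ResidueField O) (hQN := dvd_mul_left v (M * w * w)) (hM := dvd_refl (M * w * w * v * v))
      (depMap (ResidueField O) (hQN := hwL) (hM := hL) ((degV (M * w) (ResidueField O) hv).map (ResidueField O) a₂)) = 0 := by
    rw [depMap_comp hwv (hvwN := Nat.Coprime.mul_dvd_of_dvd_of_dvd hwv hwL hvMwv)
        (hM' := dvd_of_eq (by ring)),
      depMap_congr (mul_comm w v) (hQN' := Nat.Coprime.mul_dvd_of_dvd_of_dvd hwv.symm hvMwv hwL)
        (hM' := dvd_of_eq (by ring)),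
      ← depMap_comp hwv.symm (hvN := hvMwv) (hM₁ := dvd_refl (M * w * v * v))
        (hwM₁ := hwL.trans (dvd_mul_right _ v)) (hM := dvd_of_eq (by ring)),
      depMap_degV hv hv1, map_zero]
  set ξ := famAct (1 : (ZMod (M * w * v))ˣ →* (ResidueField O)ˣ) pr (ResidueField O) s
    ((resSys (ResidueField O) hML).map (ResidueField O) (resCl O M y₀)) with hξ
  have htot : depMap (ResidueField O) (hQN := dvd_mul_left v (M * w * w)) (hM := dvd_refl (M * w * w * v * v))
      (depMap (ResidueField O) (hQN := hwL) (hM := hL) ξ) =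
      depMap (ResidueField O) (hQN := dvd_mul_left v (M * w * w)) (hM := dvd_refl (M * w * w * v * v))
        ((resSys (ResidueField O) (dvd_mul_right (M * w * w) v)).map (ResidueField O) a') := by
    rw [hdec, map_add, map_add, hkill, add_zero, ha',
      resSys_depMap (dvd_mul_right (M * w) v) (dvd_mul_right (M * w * w) v) (hQN' := hwL) (hM' := hL)]
  have h2 := congrArg (fun z => val1 z γ) htot
  simp only [Depletion.val1] at h2
  rw [← val1, ← val1, val1_depMap, val1_depMap] at h2
  rw [show (fun δ => val1 (depMap (ResidueField O) (hQN := hwL) (hM := hL) ξ) δ) =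
    twistFun hwL hL (1 : (ZMod w)ˣ →* (ResidueField O)ˣ) fun δ => val1 ξ δ from
    funext fun δ => val1_depMap _ _] at h2
  rw [h2, depletion]
  refine congrArg (fun F => twistFun _ _ _ F γ) (funext fun δ => ?_)
  rw [Period.restrictH_apply]
  exact val1_map_unit _ (inj_resSys _) rfl a' δ _ (mat_one_coc _ (dvd_mul_right _ v) δ)

end FLTAgent.Lower.Levels
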