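import Fermat.Agent.Lower.Levels.TwRel.Cyclo
import Fermat.Agent.Lower.Levels.TwRel.GroupRing
import Fermat.Agent.Lower.Levels.TwRel.Residual
import Fermat.Agent.Lower.Levels.GalH

/-!
# Inertia at one auxiliary prime on a twisted frame

`exists_inertia_rel_core`: given the residual behaviour of the frame, some inertia element at `v`
satisfies no quadratic relation other than that of its character value.  The twist splits into
the twist at `v` and the twist at the other primes, and the kernel of inertia meets the lattice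
in zero, by the norm congruence of `GroupRing`.
-/

set_option autoImplicit false
set_option linter.unusedSectionVars false
set_option linter.style.haveILetI false

noncomputable section

open CongruenceSubgroup
open scoped MatrixGroups Matrix

namespace FLTAgent.Lower.Levels

open IsLocalRing (maximalIdeal ResidueField residue)
open Depletion (val1)

local notation "ℚ̄" => AlgebraicClosure ℚ
local notation "Γℚ" => (AlgebraicClosure ℚ ≃ₐ[ℚ] AlgebraicClosure ℚ)

/-- Reduction of a twist by a residually trivial character. -/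
theorem map_twistFun {N M v : ℕ} [NeZero v] {R k : Type} [CommRing R] [CommRing k]
    (hvN : v ∣ N) (hM : N * v ∣ M) (σ : R →+* k) (η : (ZMod v)ˣ →* Rˣ)
    (hη : ∀ u, σ (η u : R) = 1) (c : Gamma0 N → R) (γ : Gamma0 M) :
    σ (twistFun hvN hM η c γ) = twistFun hvN hM (1 : (ZMod v)ˣ →* kˣ) (fun δ => σ (c δ)) γ := by
  rw [twistFun_apply, twistFun_apply, map_sum]
  refine Finset.sum_congr rfl fun u _ => ?_
  rw [smul_eq_mul, map_mul, ← map_inv, hη, MonoidHom.one_apply, inv_one, Units.val_one, one_smul,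
    one_mul]

variable {p : ℕ} [Fact p.Prime] {O : Type} [CommRing O] [IsDomain O] [IsDiscreteValuationRing O]
  [IsAdicComplete (maximalIdeal O) O] [Finite (ResidueField O)] [CharZero O] {n r : ℕ}

/-- A character of `p`-power order is residually trivial. -/
theorem deltaRes_eq_one_of_pow (hp : (p : O) ∈ maximalIdeal O) {x : (DeltaRing O p n r)ˣ}
    (hx : x ^ p ^ n = 1) : deltaRes p n r (x : DeltaRing O p n r) = 1 := by
  haveI : CharP (ResidueField O) p := (CharP.charP_iff_prime_eq_zero Fact.out).mpr (by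
    rw [← map_natCast (residue O), IsLocalRing.residue_eq_zero_iff]
    exact hp)
  have h : deltaRes (O := O) p n r (x : DeltaRing O p n r) ^ p ^ n = 1 := by
    rw [← map_pow, ← Units.val_pow_eq_pow_val, hx, Units.val_one, map_one]
  refine sub_eq_zero.mp ((pow_eq_zero_iff (pow_ne_zero n (Fact.out : p.Prime).ne_zero)).mp ?_)
  rw [sub_pow_char_pow, one_pow, h, sub_self]

theorem map_mem_smul_top {d : ℕ}
    (g : (Fin d → DeltaRing O p n r) →ₗ[DeltaRing O p n r] DeltaRing O p n r)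
    {z : Fin d → DeltaRing O p n r}
    (hz : ∀ j, z j ∈ maximalIdeal O • (⊤ : Submodule O (DeltaRing O p n r))) :
    g z ∈ maximalIdeal O • (⊤ : Submodule O (DeltaRing O p n r)) := by
  rw [← (Pi.basisFun (DeltaRing O p n r) (Fin d)).sum_repr z, map_sum]
  refine Submodule.sum_mem _ fun j _ => ?_
  rw [map_smul, Pi.basisFun_repr]
  have key : ∀ x ∈ maximalIdeal O • (⊤ : Submodule O (DeltaRing O p n r)), ∀ t,
      x • t ∈ maximalIdeal O • (⊤ : Submodule O (DeltaRing O p n r)) := by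
    intro x hx t
    induction hx using Submodule.smul_induction_on' with
    | smul c hc y _ =>
      rw [smul_assoc]
      exact Submodule.smul_mem_smul hc Submodule.mem_top
    | add x _ y _ hx hy => rw [add_smul]; exact add_mem hx hy
  exact key _ (hz j) _

set_option maxHeartbeats 1000000 in
/-- **Inertia at `v` on a twisted frame**, given the residual behaviour of the frame. -/
theorem exists_inertia_rel_core (hp : (p : O) ∈ maximalIdeal O) (hp2 : p ≠ 2)
    [IsLocalRing (DeltaRing O p n r)] {M w v Q L N' : ℕ} [NeZero M] [NeZero w] [NeZero v]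
    [NeZero Q] [NeZero L] [NeZero N'] (hv : v.Prime) (hvp : v ≠ p) (hpv : p ∣ v - 1)
    (hQ : Q = w * v) (hsq : Squarefree Q) (hco : Nat.Coprime M Q) (hL : L = M * Q) {hQL : Q ∣ L}
    {hN : L * Q ∣ N'} (hN' : L * Q = N') {η : (ZMod Q)ˣ →* (DeltaRing O p n r)ˣ}
    (hη : ∀ a, η a ^ p ^ n = 1) {ψ : (ZMod L)ˣ →* (DeltaRing O p n r)ˣ}
    (hψ : TwistRel hQL hN η ψ (1 : (ZMod N')ˣ →* (DeltaRing O p n r)ˣ))
    (hψres : ∀ u, deltaRes p n r (ψ u : DeltaRing O p n r) =
      (((1 : (ZMod L)ˣ →* (ResidueField O)ˣ) u : (ResidueField O)ˣ) : ResidueField O))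
    (a₀ : (ZMod Q)ˣ) (ha₀ : ∀ h : w ∣ Q, ZMod.unitsMap h a₀ = 1)
    {ι : Type} {pr : ι → Nat.Primes} {θ' : ι → ResidueField O} {d : ℕ}
    (F : Frame ψ pr (deltaRes p n r) θ' d) (f : ℤ_[p] →+* O)
    (emb : (Fin d → DeltaRing O p n r) →ₗ[DeltaRing O p n r]
      Period.H N' (DeltaRing O p n r) (DeltaRing O p n r))
    (hemb : ∀ x, (emb x : Additive (Gamma0 N') →+ DeltaRing O p n r) =
      h1Triv N' (DeltaRing O p n r) (DeltaRing O p n r)
        ((twistSys hψ).map (DeltaRing O p n r) (F.combo x)))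
    {ℓ : ℕ} (hℓ : ℓ.Prime) (hℓ2 : ℓ ≠ 2) (hℓN : N' ∣ ℓ - 1) {c b : ResidueField O}
    (hc : c ≠ (ℓ : ResidueField O) + 1) (hb : b ^ 2 ≠ 4)
    (hinj : ∀ z₁ : Fin d → O, coefMap (A := DeltaRing O p n r) (B := ResidueField O)
        (deltaRes p n r).toSemilinearMap hψres
        (F.combo fun j => algebraMap O (DeltaRing O p n r) (z₁ j)) = 0 →
      ∀ j, residue O (z₁ j) = 0)
    (hgen : ∀ z₁ : Fin d → O, ∀ ξ, ξ = coefMap (A := DeltaRing O p n r) (B := ResidueField O)
        (deltaRes p n r).toSemilinearMap hψres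
        (F.combo fun j => algebraMap O (DeltaRing O p n r) (z₁ j)) →
      ξ ∈ (heckeOp hℓ (1 : (ZMod L)ˣ →* (ResidueField O)ˣ) (ResidueField O)).maxGenEigenspace c ∧
      ∀ q : ℕ, ∀ hq : q.Prime, q ∣ Q → (q : ResidueField O) = 1 ∧ ∃ α : ResidueField O, α ^ 2 ≠ 1 ∧
        ξ ∈ (heckeOp hq (1 : (ZMod L)ˣ →* (ResidueField O)ˣ) (ResidueField O)).maxGenEigenspace α)
    (hbase : ∀ z₁ : Fin d → O, ∀ h : M ∣ L, ∃ (y₀ : H1 O O (tchi M O))
        (s : MvPolynomial ι (ResidueField O)),
      resCl O M y₀ ∈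
        (heckeOp hℓ (1 : (ZMod M)ˣ →* (ResidueField O)ˣ) (ResidueField O)).maxGenEigenspace c ∧
      resCl O M y₀ ∈
        (heckeOp hv (1 : (ZMod M)ˣ →* (ResidueField O)ˣ) (ResidueField O)).maxGenEigenspace b ∧
      coefMap (A := DeltaRing O p n r) (B := ResidueField O) (deltaRes p n r).toSemilinearMap hψres
        (F.combo fun j => algebraMap O (DeltaRing O p n r) (z₁ j)) =
        famAct (1 : (ZMod L)ˣ →* (ResidueField O)ˣ) pr (ResidueField O) s
          ((resSys (ResidueField O) h).map (ResidueField O) (resCl O M y₀))) :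
    ∃ σ : Γℚ, (∃ A : ValuationSubring ℚ̄, A.LiesOverPrime v ∧ σ ∈ A.inertiaSubgroupIn ℚ) ∧
      ∀ Mt : Matrix (Fin d) (Fin d) (DeltaRing O p n r),
        (∀ x, galH N' ((algebraMap O (DeltaRing O p n r)).comp f) σ
              (galH N' ((algebraMap O (DeltaRing O p n r)).comp f) σ (emb x)) -
            galH N' ((algebraMap O (DeltaRing O p n r)).comp f) σ (emb (Mt *ᵥ x)) + emb x = 0) →
          Mt = Matrix.scalar (Fin d)
            ((η a₀ : DeltaRing O p n r) + ((η a₀)⁻¹ : (DeltaRing O p n r)ˣ)) := by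
  classical
  subst hQ
  obtain rfl : L = M * w * v := by rw [hL, mul_assoc]
  obtain rfl : N' = M * w * w * v * v := by rw [← hN']; ring
  haveI : IsLocalHom (algebraMap O (DeltaRing O p n r)) := isLocalHom_deltaRing p n r hp
  haveI : CharP (ResidueField O) p := (CharP.charP_iff_prime_eq_zero Fact.out).mpr (by
    rw [← map_natCast (residue O), IsLocalRing.residue_eq_zero_iff]
    exact hp)
  have hwv : Nat.Coprime w v := Nat.coprime_of_squarefree_mul hsq
  obtain ⟨hMw, hMv⟩ := Nat.coprime_mul_iff_right.mp hco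
  have hvMw : ¬ v ∣ M * w := hv.coprime_iff_not_dvd.mp (Nat.Coprime.mul_right hMv.symm hwv.symm)
  have hvN₁ : ¬ v ∣ M * w * w :=
    hv.coprime_iff_not_dvd.mp (Nat.Coprime.mul_right (Nat.Coprime.mul_right hMv.symm hwv.symm) hwv.symm)
  obtain ⟨ηw, ηv, hw1, hv1, hsplit⟩ := exists_char_components hwv η hη
  set a := ZMod.unitsMap (dvd_mul_left v w) a₀ with ha
  have hδ : η a₀ = ηv a := by rw [hsplit, ha₀, map_one, one_mul]
  obtain ⟨A, σ, hA, hσ, hμ⟩ := exists_inertia_root_pow hv a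
  refine ⟨σ, ⟨A, hA, hσ⟩, ?_⟩
  obtain ⟨K, hKsat, hKrel, hKdep⟩ := exists_inertia_kernel (M * w * w) v hp2 hv hvp hvN₁ hpv hp n ηv
    hv1 f A hA σ hσ a hμ
  -- the two twists
  have hwL : w ∣ M * w * v := (dvd_mul_left w M).trans (dvd_mul_right _ v)
  have hL1 : M * w * v * w ∣ M * w * w * v := dvd_of_eq (by ring)
  set ψm := twistChar (dvd_mul_left v (M * w * w)) ηv with hψm
  have hum : ∀ {a b c : ℕ} (hab : a ∣ b) (hbc : b ∣ c) (u : (ZMod c)ˣ),
      ZMod.unitsMap hab (ZMod.unitsMap hbc u) = ZMod.unitsMap (hab.trans hbc) u :=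
    fun hab hbc u => DFunLike.congr_fun (ZMod.unitsMap_comp hab hbc) u
  have h₁ : TwistRel hwL hL1 ηw ψ ψm := by
    intro y
    obtain ⟨z, rfl⟩ := ZMod.unitsMap_surjective (dvd_mul_right (M * w * w * v) v) y
    have hz := hψ z
    rw [MonoidHom.one_apply, hsplit, hum, hum, mul_pow, ← mul_assoc] at hz
    simp only [hψm, twistChar, MonoidHom.comp_apply, MonoidHom.inv_apply, MonoidHom.pow_apply, hum]
    exact eq_inv_of_mul_eq_one_left hz
  set h₂ := twistRel_twistChar (dvd_mul_left v (M * w * w)) ηv with hh₂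
  have hχ : chi ψm = ((ηv.comp (dUnit (dvd_mul_left v (M * w * w)))) ^ 2)⁻¹ :=
    MonoidHom.ext fun γ => by
      simp only [chi, hψm, twistChar, MonoidHom.comp_apply, MonoidHom.inv_apply,
        MonoidHom.pow_apply, dUnit_trans]
  -- cocycles
  choose C₀ hC₀ using fun j => Submodule.Quotient.mk_surjective _ (F.vec j)
  set C := Fintype.linearCombination (DeltaRing O p n r) C₀ with hCdef
  have hC : ∀ x, Submodule.Quotient.mk (C x) = F.combo x := fun x => by
    show Submodule.mkQ _ (C x) = _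
    simp only [hCdef, Frame.combo, Fintype.linearCombination_apply, map_sum, map_smul,
      Submodule.mkQ_apply, hC₀]
  let cfun : (Fin d → DeltaRing O p n r) →ₗ[DeltaRing O p n r]
      (Gamma0 (M * w * w * v) → DeltaRing O p n r) :=
    (Z1 _ _ (chi ψm)).subtype ∘ₗ (twistSys h₁).op ∘ₗ C
  have hcfun : ∀ x, cfun x = twistFun hwL hL1 ηw (C x : Gamma0 (M * w * v) → DeltaRing O p n r) :=
    fun x => coe_twistSys_op h₁ (C x)
  have hcmem : ∀ x, cfun x ∈ Z1 (DeltaRing O p n r) (DeltaRing O p n r)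
      ((ηv.comp (dUnit (dvd_mul_left v (M * w * w)))) ^ 2)⁻¹ := fun x => by
    rw [← hχ]
    exact ((twistSys h₁).op (C x)).2
  set s : DeltaRing O p n r := ((ηw (ZMod.unitOfCoprime v (Nat.coprime_comm.mp hwv)) *
    ηv (ZMod.unitOfCoprime w hwv) : (DeltaRing O p n r)ˣ) : DeltaRing O p n r) with hs
  have hy : ∀ x, IsTwist (M * w * w) v ηv (cfun x) (s • emb x) := by
    intro x γ
    rw [Submodule.coe_smul, hemb, ← map_smul, ← twist_comp hwv η hsplit h₁ h₂ hψ, ← hC,
      Sys.map_mk, Sys.map_mk, h1Triv_mk, coe_twistSys_op]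
    rfl
  intro Mt hMt
  have hker : ∀ x, cfun ((Mt - Matrix.scalar (Fin d)
      ((η a₀ : DeltaRing O p n r) + ((η a₀)⁻¹ : (DeltaRing O p n r)ˣ))) *ᵥ x) ∈ K := fun x => by
    have h := hKrel (cfun x) (hcmem x) (cfun (Mt *ᵥ x)) (hcmem _) _ _ (hy x) (hy _) (by
      simpa only [smul_sub, smul_add, map_smul, smul_zero] using congrArg (fun y => s • y) (hMt x))
    rw [← hδ] at h
    rw [Matrix.sub_mulVec, map_sub, Matrix.scalar_apply, ← Matrix.smul_one_eq_diagonal,
      Matrix.smul_mulVec, Matrix.one_mulVec, map_smul]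
    exact h
  suffices hzero : K.comap cfun = ⊥ by
    refine sub_eq_zero.mp (Matrix.ext_iff_mulVec.mpr fun x => ?_)
    rw [Matrix.zero_mulVec, ← Submodule.mem_bot (DeltaRing O p n r), ← hzero]
    exact hker x
  by_contra hne
  obtain ⟨z, hz, z₁, ⟨j₀, hj₀⟩, hcongr⟩ := exists_mem_norm_congr hp (K.comap cfun)
    (fun b z hb hz => by
      rw [Submodule.mem_comap, map_smul] at hz
      exact hKsat b _ hb hz) hne
  set ιz := fun j => algebraMap O (DeltaRing O p n r) (z₁ j) with hιz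
  set ξ := coefMap (A := DeltaRing O p n r) (B := ResidueField O)
    (deltaRes p n r).toSemilinearMap hψres (F.combo ιz) with hξ
  obtain ⟨hξT, hξU⟩ := hgen z₁ ξ hξ
  have hML : M ∣ M * w * v := (dvd_mul_right M w).trans (dvd_mul_right _ v)
  obtain ⟨y₀, t, hy₀T, hy₀U, hξeq⟩ := hbase z₁ hML
  rw [← hξ] at hξeq
  have hℓN₁ : M * w * w * v ∣ ℓ - 1 := (dvd_mul_right _ v).trans hℓN
  obtain ⟨x, hxb, hxdep⟩ := exists_period_depletion (O := O) hv hvMw (hξU v hv (dvd_mul_left v w)).1
    hwv hℓ hℓN₁ hc y₀ hy₀T hy₀U pr t hML hwL hL1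
  rw [← hξeq] at hxdep
  have hval : ∀ δ, val1 ξ δ =
      deltaRes p n r ((C ιz : Gamma0 (M * w * v) → DeltaRing O p n r) δ) := fun δ => by
    rw [hξ, ← hC]
    rfl
  set tw : (Gamma0 (M * w * w * v) → DeltaRing O p n r) →ₗ[DeltaRing O p n r]
      (Gamma0 (M * w * w * v * v) → DeltaRing O p n r) :=
    twistFun (dvd_mul_left v (M * w * w)) dvd_rfl ηv
  have hred : ∀ γ, residue O (deltaAug O p n r (tw (cfun ιz) γ)) =
      depletion (M * w * w) v x γ := fun γ => by
    show deltaRes p n r (tw (cfun ιz) γ) = _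
    rw [map_twistFun _ _ _ ηv (fun u => deltaRes_eq_one_of_pow hp (hv1 u)), ← hxdep]
    refine congrArg (fun g => twistFun _ _ _ g γ) (funext fun δ => ?_)
    rw [hcfun, map_twistFun _ _ _ ηw (fun u => deltaRes_eq_one_of_pow hp (hw1 u))]
    exact congrArg (fun g => twistFun _ _ _ g δ) (funext fun ε => (hval ε).symm)
  have hx0 : x = 0 := by
    refine hKdep (cfun z) hz (hcmem z) _ (hy z) x (normElt O p n r) normElt_notMem b hb hxb
      fun γ => ⟨deltaAug O p n r (tw (cfun ιz) γ), hred γ, ?_⟩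
    rw [hy z γ]
    let g : (Fin d → DeltaRing O p n r) →ₗ[DeltaRing O p n r] DeltaRing O p n r :=
      (LinearMap.proj γ).comp (tw.comp cfun)
    show g z - deltaAug O p n r (g ιz) • normElt O p n r ∈ _
    rw [← normElt_mul, ← smul_eq_mul, ← map_smul g, ← map_sub]
    refine map_mem_smul_top g fun j => ?_
    rw [Pi.sub_apply, Pi.smul_apply, smul_eq_mul, mul_comm, hιz, ← Algebra.smul_def]
    exact hcongr j
  have hdep : depMap (ResidueField O) (hQN := hQL) (hM := hN) ξ = 0 := by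
    rw [← depMap_comp hwv (hvN := hwL) (hM₁ := hL1) (hwM₁ := dvd_mul_left v (M * w * w))
      (hM := dvd_rfl), depMap_eq_zero_iff]
    intro γ
    rw [show (fun δ => val1 (depMap (ResidueField O) (hQN := hwL) (hM := hL1) ξ) δ) =
      twistFun hwL hL1 (1 : (ZMod w)ˣ →* (ResidueField O)ˣ) fun δ => val1 ξ δ from
      funext fun δ => val1_depMap _ _, hxdep γ, hx0, depletion, map_zero, twistFun_apply]
    exact Finset.sum_eq_zero fun u _ => smul_zero _
  have hξ0 : ξ = 0 := eq_zero_of_depMap (p := p) hp2 hℓ hℓ2 hc (w * v) hQL hN (by ring) hsq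
    (fun j hj => by
      obtain rfl : j = M := Nat.eq_of_mul_eq_mul_right (Nat.pos_of_ne_zero (NeZero.ne (w * v)))
        (by rw [← hj, mul_assoc])
      exact hco)
    hℓN ξ hξT hξU hdep
  exact hj₀ (hinj z₁ hξ0 j₀)

end FLTAgent.Lower.Levels
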