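import Fermat.Agent.EllP.Unramified
import Fermat.Agent.GalCommon.Frobenius
import Fermat.Agent.Lower.TameFacts

/-!
# Inertia on the `l`-th roots of unity

`exists_inertia_root_pow`: every unit modulo the prime `l` is the action of some inertia element
at `l` on `μ_l`: the image of inertia at `l` is everything, as `ℚ` has no nontrivial unramified
extension.
-/

set_option autoImplicit false
set_option linter.style.haveILetI false

noncomputable section

open scoped Pointwise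

namespace FLTAgent.Lower.Levels

local notation "ℚ̄" => AlgebraicClosure ℚ
local notation "Γℚ" => (AlgebraicClosure ℚ ≃ₐ[ℚ] AlgebraicClosure ℚ)

/-- An inertia element at `l` acting on `μ_l` by a given unit. -/
theorem exists_inertia_root_pow {l : ℕ} (hl : l.Prime) (a : (ZMod l)ˣ) :
    ∃ (A : ValuationSubring ℚ̄) (σ : Γℚ), A.LiesOverPrime l ∧ σ ∈ A.inertiaSubgroupIn ℚ ∧
      ∀ μ : ℚ̄, IsPrimitiveRoot μ l → σ μ = μ ^ (a : ZMod l).val := by
  haveI : Fact l.Prime := ⟨hl⟩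
  haveI : NeZero l := ⟨hl.ne_zero⟩
  haveI : NeZero (l : ℚ̄) := ⟨Nat.cast_ne_zero.mpr hl.ne_zero⟩
  haveI := GalCommon.normal_Qbar
  obtain ⟨A, hA, -⟩ := GalCommon.exists_place_frobenius hl
  obtain ⟨ζ, hζ⟩ := HasEnoughRootsOfUnity.exists_primitiveRoot ℚ̄ l
  let χ : Γℚ →* (ZMod l)ˣ := (modularCyclotomicCharacter ℚ̄ (card_rootsOfUnity_Qb l)).comp
    (MonoidHom.mk' (fun σ : Γℚ => (σ : ℚ̄ ≃+* ℚ̄)) fun _ _ => rfl)
  have hspec : ∀ (σ : Γℚ) (μ : ℚ̄), IsPrimitiveRoot μ l → σ μ = μ ^ (χ σ : ZMod l).val :=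
    fun σ μ hμ => modularCyclotomicCharacter.spec ℚ̄ (card_rootsOfUnity_Qb l) (σ : ℚ̄ ≃+* ℚ̄)
      hμ.toRootsOfUnity.2
  have hfix : ∀ σ : Γℚ, σ ζ = ζ → χ σ = 1 := fun σ h => by
    refine Units.ext ?_
    have h1 := (hspec σ ζ hζ).symm.trans h
    conv_rhs at h1 => rw [← pow_one ζ]
    have h2 := (hζ.isOfFinOrder hl.ne_zero).pow_eq_pow_iff_modEq.mp h1
    rwa [← hζ.eq_orderOf, ← ZMod.natCast_eq_natCast_iff, ZMod.natCast_zmod_val, Nat.cast_one] at h2
  let H : Subgroup (ZMod l)ˣ := (A.inertiaSubgroupIn ℚ).map χ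
  let F : IntermediateField ℚ ℚ̄ := IntermediateField.adjoin ℚ {ζ}
  haveI : FiniteDimensional ℚ F :=
    IntermediateField.adjoin.finiteDimensional (Algebra.IsIntegral.isIntegral ζ)
  have hU : H.comap χ = ⊤ := EllP.eq_top_of_inertia_le _ F
    (fun σ hσ => by
      rw [Subgroup.mem_comap, hfix σ ((IntermediateField.mem_fixingSubgroup_iff F σ).mp hσ ζ
        (IntermediateField.mem_adjoin_simple_self ℚ ζ))]
      exact H.one_mem)
    fun q hq A' hA' τ hτ => by
      rw [Subgroup.mem_comap]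
      by_cases hql : q = l
      · subst hql
        obtain ⟨g, rfl⟩ := GalCommon.exists_smul_eq_of_liesOverPrime hl hA hA'
        have h1 := GalCommon.mem_inertia_conj hτ g⁻¹
        rw [inv_smul_smul] at h1
        refine ⟨_, h1, ?_⟩
        rw [map_mul, map_mul, mul_right_comm, ← map_mul, ← map_mul, mul_inv_cancel, one_mul]
      · rw [hfix τ (GalCommon.inertia_apply_of_pow_eq_one hq hA'
          (fun h => hql ((Nat.prime_dvd_prime_iff_eq hq hl).mp h)) hτ hζ.pow_eq_one)]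
        exact H.one_mem
  -- a lift of `a`
  obtain ⟨σ, hσ⟩ := minpoly.exists_algEquiv_of_root' (K := ℚ) (x := ζ ^ (a : ZMod l).val) (y := ζ)
    (Algebra.IsAlgebraic.isAlgebraic ζ) (by
      rw [← Polynomial.cyclotomic_eq_minpoly_rat hζ hl.pos, Polynomial.aeval_def,
        ← Polynomial.eval_map, Polynomial.map_cyclotomic]
      exact (Polynomial.isRoot_cyclotomic_iff).mpr
        (hζ.pow_of_coprime _ (ZMod.val_coe_unit_coprime a)))
  have hχσ : χ σ = a := by
    refine Units.ext ?_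
    have h2 := (hζ.isOfFinOrder hl.ne_zero).pow_eq_pow_iff_modEq.mp ((hspec σ ζ hζ).symm.trans hσ)
    rwa [← hζ.eq_orderOf, ← ZMod.natCast_eq_natCast_iff, ZMod.natCast_zmod_val,
      ZMod.natCast_zmod_val] at h2
  obtain ⟨τ, hτ, hτa⟩ := (hU ▸ Subgroup.mem_top σ : σ ∈ H.comap χ)
  exact ⟨A, τ, hA, hτ, fun μ hμ => by rw [hspec τ μ hμ, hτa, hχσ]⟩

end FLTAgent.Lower.Levels
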