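import Fermat.Agent.Lower.Levels.TwistInj
import Fermat.Agent.Lower.Levels.Embed
import Fermat.Agent.Lower.Levels.Span

/-!
# The twist by the trivial character over a residue field

`depMap` is this twist on `H¹`: it composes for coprime moduli (`depMap_comp`), commutes with
restriction and Hecke operators, and kills second degeneracies when `v = 1` (`depMap_degV`).
`eq_zero_of_depMap`: for squarefree modulus it is injective on stabilised eigenclasses away from
the Eisenstein eigenvalue, by induction on the prime factors.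
-/

set_option autoImplicit false
set_option linter.unusedSectionVars false
set_option linter.style.haveILetI false

noncomputable section

open CongruenceSubgroup
open scoped MatrixGroups

namespace FLTAgent.Lower.Levels

open FLTAgent.HeckeH (M2 matOf matOf_mul matOf_injective)
open Depletion (val1 val1_mul val1_smul val1_zero val1_ext val1_map_unit val1_degOne val1_degV)

section General

variable {N M Q : ℕ} {R : Type} [CommRing R]

theorem twistRel_one [NeZero Q] (hQN : Q ∣ N) (hM : N * Q ∣ M) :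
    TwistRel hQN hM (1 : (ZMod Q)ˣ →* Rˣ) (1 : (ZMod N)ˣ →* Rˣ) (1 : (ZMod M)ˣ →* Rˣ) :=
  fun x => by simp

/-- Commuting maps carry generalised eigenvectors to generalised eigenvectors. -/
theorem map_mem_maxGenEigenspace {V W : Type} [AddCommGroup V] [Module R V] [AddCommGroup W]
    [Module R W] (g : V →ₗ[R] W) {T : Module.End R V} {T' : Module.End R W}
    (h : ∀ x, g (T x) = T' (g x)) {b : R} {x : V} (hx : x ∈ T.maxGenEigenspace b) :
    g x ∈ T'.maxGenEigenspace b := by
  rw [Module.End.mem_maxGenEigenspace] at hx ⊢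
  obtain ⟨j, hj⟩ := hx
  refine ⟨j, ?_⟩
  have e : ∀ (j : ℕ) (z : V),
      g (((T - b • (1 : Module.End R V)) ^ j) z) = ((T' - b • (1 : Module.End R W)) ^ j) (g z) := by
    intro j
    induction j with
    | zero => intro z; simp
    | succ j ih => intro z; simp [pow_succ, Module.End.mul_apply, ih, h]
  rw [← e, hj, map_zero]

end General

variable {k : Type} [Field k] {N M : ℕ} {Q : ℕ} [NeZero Q]

/-- The twist by the trivial character modulo `Q`. -/
def depMap (k : Type) [Field k] (hQN : Q ∣ N) (hM : N * Q ∣ M) : H1 k k (tchi N k) →ₗ[k] H1 k k (tchi M k) :=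
  (twistSys (twistRel_one hQN hM)).map k

variable {hQN : Q ∣ N} {hM : N * Q ∣ M}

theorem val1_depMap (x : H1 k k (tchi N k)) (γ : Gamma0 M) :
    val1 (depMap k hQN hM x) γ = twistFun hQN hM (1 : (ZMod Q)ˣ →* kˣ) (fun δ => val1 x δ) γ := by
  induction x using Submodule.Quotient.induction_on with
  | _ c =>
    rw [val1, depMap, Sys.map_mk, h1Triv_mk, coe_twistSys_op]
    rfl

theorem depMap_eq_zero_iff (x : H1 k k (tchi N k)) :
    depMap k hQN hM x = 0 ↔
      ∀ γ, twistFun hQN hM (1 : (ZMod Q)ˣ →* kˣ) (fun δ => val1 x δ) γ = 0 :=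
  ⟨fun h γ => by rw [← val1_depMap, h, val1_zero],
    fun h => val1_ext fun γ => by rw [val1_depMap, h, val1_zero]⟩

theorem depMap_hecke {ℓ : ℕ} (hℓ : ℓ.Prime) (hℓQ : ¬ ℓ ∣ Q) (hℓM : ℓ ∣ M → ℓ ∣ N)
    (x : H1 k k (tchi N k)) :
    depMap k hQN hM (heckeOp hℓ 1 k x) = heckeOp hℓ 1 k (depMap k hQN hM x) := by
  rw [depMap, twist_heckeOp _ hℓ hℓQ hℓM, MonoidHom.one_apply, inv_one, Units.val_one, one_smul]

theorem depMap_congr {Q' : ℕ} [NeZero Q'] (h : Q = Q') {hQN' : Q' ∣ N} {hM' : N * Q' ∣ M}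
    (x : H1 k k (tchi N k)) : depMap k hQN hM x = depMap k hQN' hM' x := by
  subst h
  rfl

theorem depMap_comp {v w M₁ : ℕ} [NeZero v] [NeZero w] (hco : Nat.Coprime v w) {hvN : v ∣ N}
    {hM₁ : N * v ∣ M₁} {hwM₁ : w ∣ M₁} {hM : M₁ * w ∣ M} {hvwN : v * w ∣ N}
    {hM' : N * (v * w) ∣ M} (x : H1 k k (tchi N k)) :
    depMap k hwM₁ hM (depMap k hvN hM₁ x) = depMap k hvwN hM' x := by
  have h := twist_comp (A := k) hco (1 : (ZMod (v * w))ˣ →* kˣ) (ηv := 1) (ηw := 1)
    (fun u => by simp) (twistRel_one hvN hM₁) (twistRel_one hwM₁ hM) (twistRel_one hvwN hM') x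
  simpa [depMap] using h

/-- Restriction commutes with the trivial twist. -/
theorem resSys_depMap {N' M' : ℕ} (h : N ∣ N') (h' : M ∣ M') {hQN' : Q ∣ N'} {hM' : N' * Q ∣ M'}
    (x : H1 k k (tchi N k)) :
    (resSys k h').map k (depMap k hQN hM x) = depMap k hQN' hM' ((resSys k h).map k x) := by
  have hval : ∀ {A B : ℕ} (hAB : A ∣ B) (y : H1 k k (tchi A k)) (γ : Gamma0 B),
      val1 ((resSys k hAB).map k y) γ =
        val1 y (Subgroup.inclusion (Period.gamma0_le_gamma0_of_dvd hAB) γ) :=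
    fun hAB y γ => val1_map_unit _ (inj_resSys hAB) rfl y γ _ (mat_one_coc _ hAB γ)
  refine val1_ext fun γ => ?_
  rw [hval, val1_depMap, val1_depMap, twistFun_apply, twistFun_apply]
  refine Finset.sum_congr rfl fun u _ => ?_
  show _ • val1 x _ = _ • val1 ((resSys k h).map k x) _
  rw [hval]
  exact congrArg (fun δ => ((((1 : (ZMod Q)ˣ →* kˣ) u)⁻¹ : kˣ) : k) • val1 x δ)
    (matOf_injective rfl)

/-- The trivial twist at `v = 1` kills second degeneracies. -/
theorem depMap_degV {v : ℕ} [NeZero v] (hv : v.Prime) (hv1 : (v : k) = 1) {hvN : v ∣ N * v}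
    {hM : N * v * v ∣ M} (x : H1 k k (tchi N k)) :
    depMap k hvN hM ((degV N k hv).map k x) = 0 := by
  refine val1_ext fun γ => ?_
  rw [val1_depMap, val1_zero, twistFun_apply]
  simp only [MonoidHom.one_apply, inv_one, Units.val_one, one_smul]
  have hNM : N * v ∣ M := (dvd_mul_right _ v).trans hM
  set ε := Degen.degHom (N := N) v hNM γ
  let t : ZMod v → k := fun u => val1 x (gammaT N (u.val : ℕ))
  have key : ∀ u : (ZMod v)ˣ,
      val1 ((degV N k hv).map k x) (twistElt hvN hM γ u) =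
        t u + val1 x ε - t (twistIdx v γ u) := by
    intro u
    set δ := Degen.degHom (N := N) v dvd_rfl (twistElt hvN hM γ u)
    rw [val1_degV hv x _ δ (Degen.dMat_mul_degHom _ _ _)]
    set V : M2 := !![(v : ℤ), 0; 0, (v : ℤ)] with hV
    have hT : ∀ z : ZMod v, Degen.dMat v * transMat v z =
        matOf (gammaT N (z.val : ℕ)) * Degen.dMat v * V := fun z => by
      simp only [Degen.dMat, transMat, gammaT, HeckeH.matOf_mkGamma0, hV, Matrix.mul_fin_two]
      ext a b
      fin_cases a <;> fin_cases b <;> simp [-ZMod.natCast_val]; all_goals ring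
    have hcomm : ∀ X : M2, V * X = X * V := fun X => by
      ext a b
      fin_cases a <;> fin_cases b <;>
        simp [hV, Matrix.mul_apply, Fin.sum_univ_two, mul_comm]
    have e : δ * gammaT N ((twistIdx v γ u).val : ℕ) = gammaT N ((u : ZMod v).val : ℕ) * ε := by
      refine matOf_injective (HeckeH.mul_right_cancel_of_det_ne
        (c := Degen.dMat v * V) ?_ ?_)
      · simp [hV, Degen.dMat, Matrix.det_fin_two_of, hv.ne_zero]
      · rw [matOf_mul, matOf_mul, Matrix.mul_assoc (matOf δ),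
          ← Matrix.mul_assoc (matOf (gammaT N _)) (Degen.dMat v), ← hT, ← Matrix.mul_assoc,
          ← Degen.dMat_mul_degHom, Matrix.mul_assoc, ← transMat_mul hvN hM, ← Matrix.mul_assoc,
          hT, Matrix.mul_assoc _ V, hcomm, ← Matrix.mul_assoc,
          Matrix.mul_assoc (matOf (gammaT N _)) (Degen.dMat v), Degen.dMat_mul_degHom v hNM γ]
        simp only [Matrix.mul_assoc]
        rfl
    have h := congrArg (val1 x) e
    rw [val1_mul, val1_mul] at h
    exact eq_sub_of_add_eq h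
  rw [Finset.sum_congr rfl fun u _ => key u, Finset.sum_sub_distrib, Finset.sum_add_distrib,
    Finset.sum_const, Finset.card_univ, ZMod.card_units_eq_totient, Nat.totient_prime hv,
    nsmul_eq_mul, Nat.cast_sub hv.one_le, hv1, Nat.cast_one, sub_self, zero_mul, add_zero,
    sub_eq_zero]
  have hperm : ∀ u : (ZMod v)ˣ, twistIdx v γ (u : ZMod v) =
      ((u * dUnit ((dvd_mul_left v (N * v)).trans hM) γ ^ 2 : (ZMod v)ˣ) : ZMod v) := fun u => by
    rw [twistIdx, Units.val_mul, Units.val_pow_eq_pow_val, coe_dUnit]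
  exact (Fintype.sum_equiv (Equiv.mulRight (dUnit ((dvd_mul_left v (N * v)).trans hM) γ ^ 2)) _
    (fun u : (ZMod v)ˣ => t u) fun u => congrArg t (hperm u)).symm

/-- **The trivial twist at squarefree `Q` is injective on stabilised classes.** -/
theorem eq_zero_of_depMap {p : ℕ} [Fact p.Prime] [CharP k p] (hp2 : p ≠ 2) {ℓ : ℕ} (hℓ : ℓ.Prime)
    (hℓ2 : ℓ ≠ 2) {c : k} (hc : c ≠ (ℓ : k) + 1) :
    ∀ (Q : ℕ) [NeZero Q] {L M : ℕ} [NeZero L] (hQ : Q ∣ L) (hM : L * Q ∣ M), L * Q = M →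
      Squarefree Q → (∀ j, L = j * Q → Nat.Coprime j Q) → M ∣ ℓ - 1 →
      ∀ (x : H1 k k (tchi L k)),
      x ∈ (heckeOp hℓ (1 : (ZMod L)ˣ →* kˣ) k).maxGenEigenspace c →
      (∀ q : ℕ, ∀ hq : q.Prime, q ∣ Q → (q : k) = 1 ∧ ∃ α : k, α ^ 2 ≠ 1 ∧
        x ∈ (heckeOp hq (1 : (ZMod L)ˣ →* kˣ) k).maxGenEigenspace α) →
      depMap k hQ hM x = 0 → x = 0 := by
  intro Q
  induction Q using Nat.strong_induction_on with
  | _ Q ih =>
    intro _ L M _ hQ hM hMeq hsq hco hℓM x hT hU hx
    rcases eq_or_ne Q 1 with rfl | hQ1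
    · exact eq_zero_of_twist_one (by omega) (twistRel_one hQ hM) hx
    obtain ⟨v, hv, w, rfl⟩ : ∃ v, v.Prime ∧ ∃ w, Q = w * v :=
      ⟨Q.minFac, Nat.minFac_prime hQ1, Q / Q.minFac, (Nat.div_mul_cancel Q.minFac_dvd).symm⟩
    have hwv : Nat.Coprime w v := Nat.coprime_of_squarefree_mul hsq
    haveI : NeZero v := ⟨hv.ne_zero⟩
    haveI : NeZero w := ⟨fun h0 => NeZero.ne (w * v) (by rw [h0, zero_mul])⟩
    obtain ⟨j, hj⟩ : ∃ j, L = j * (w * v) := ⟨_, (Nat.div_mul_cancel hQ).symm⟩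
    obtain ⟨hjw, hjv⟩ := Nat.coprime_mul_iff_right.mp (hco j hj)
    obtain ⟨N₁, hN₁⟩ : ∃ N₁, N₁ = j * w * w := ⟨_, rfl⟩
    obtain rfl : M = N₁ * v * v := by rw [← hMeq, hj, hN₁]; ring
    haveI : NeZero N₁ := ⟨fun h0 => mul_ne_zero (NeZero.ne L) (NeZero.ne (w * v))
      (hMeq.trans (by rw [h0, zero_mul, zero_mul]))⟩
    have hvw : ¬ v ∣ w := hv.coprime_iff_not_dvd.mp hwv.symm
    have hvN₁ : ¬ v ∣ N₁ := by
      rw [hN₁]
      exact hv.coprime_iff_not_dvd.mp
        (Nat.Coprime.mul_right (Nat.Coprime.mul_right hjv.symm hwv.symm) hwv.symm)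
    have hL : L * w = N₁ * v := by rw [hj, hN₁]; ring
    set y := depMap k (hQN := (dvd_mul_right w v).trans hQ) (hM := dvd_of_eq hL) x with hy
    have hℓL : ¬ ℓ ∣ N₁ * v * v := fun hd => by
      have := Nat.le_of_dvd (by have := hℓ.two_le; omega) (hd.trans hℓM)
      have := hℓ.two_le
      omega
    have hwM : w ∣ N₁ * v * v := ⟨j * w * v * v, by rw [hN₁]; ring⟩
    have hyT : y ∈ (heckeOp hℓ (1 : (ZMod (N₁ * v))ˣ →* kˣ) k).maxGenEigenspace c :=
      map_mem_maxGenEigenspace _ (fun z => depMap_hecke hℓ (fun hd => hℓL (hd.trans hwM))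
        (fun hd => absurd (hd.mul_right v) hℓL) z) hT
    obtain ⟨hv1, α, hα, hxv⟩ := hU v hv (dvd_mul_left v w)
    have hvL : v ∣ L := (dvd_mul_left v w).trans hQ
    have hyU : y ∈ (heckeOp hv (1 : (ZMod (N₁ * v))ˣ →* kˣ) k).maxGenEigenspace α :=
      map_mem_maxGenEigenspace _ (fun z => depMap_hecke hv hvw (fun _ => hvL) z) hxv
    have hy0 : y = 0 := by
      have hdep : depMap k (hQN := dvd_mul_left v N₁) (hM := dvd_rfl) y = 0 := by
        rw [hy, depMap_comp hwv (hvwN := hQ) (hM' := hM), hx]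
      exact eq_zero_of_depletion_eq_zero (p := p) hv hvN₁ hp2 hv1 hℓ hℓ2
        ((dvd_mul_right _ v).trans hℓM) y hα hc ((Module.End.mem_maxGenEigenspace _ _ _).mp hyU)
        ((Module.End.mem_maxGenEigenspace _ _ _).mp hyT) ((depMap_eq_zero_iff _).mp hdep)
    refine ih w (lt_mul_of_one_lt_right (Nat.pos_of_ne_zero (NeZero.ne w)) hv.one_lt) _ _ hL
      hsq.of_mul_left (fun j' hj' => ?_) ((dvd_mul_right _ v).trans hℓM) x hT
      (fun q hq hqw => hU q hq (hqw.mul_right v)) hy0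
    obtain rfl : j' = j * v := Nat.eq_of_mul_eq_mul_right (Nat.pos_of_ne_zero (NeZero.ne w)) (by
      rw [← hj', hj]; ring)
    exact Nat.Coprime.mul_left hjw hwv.symm

end FLTAgent.Lower.Levels
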